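import Mathlib.NumberTheory.ModularForms.NormTrace
import Mathlib.RingTheory.Polynomial.Vieta
import Mathlib.RingTheory.MvPolynomial.Symmetric.Defs
import Mathlib.NumberTheory.ModularForms.CongruenceSubgroups

set_option autoImplicit false
set_option linter.style.haveILetI false
set_option linter.unusedSectionVars false

open UpperHalfPlane SlashInvariantForm
open scoped ModularForm MatrixGroups Manifold Topology

namespace Fermat.Agent.S23

noncomputable section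

variable {𝒢 ℋ : Subgroup (GL (Fin 2) ℝ)} {F : Type*} [FunLike F ℍ ℂ] {k : ℤ}

local notation "𝒬" => ℋ ⧸ (𝒢.subgroupOf ℋ)

/-- The `m`-th elementary symmetric function of the `ℋ`-conjugates `f ∣[k] h⁻¹` of a
`𝒢`-invariant form `f`, as a function on the upper half plane. -/
def esymmFun (ℋ : Subgroup (GL (Fin 2) ℝ)) [𝒢.IsFiniteRelIndex ℋ] (f : F)
    [SlashInvariantFormClass F 𝒢 k] (m : ℕ) : ℍ → ℂ :=
  letI := Fintype.ofFinite (ℋ ⧸ (𝒢.subgroupOf ℋ))
  ∑ S ∈ Finset.powersetCard m (Finset.univ : Finset (ℋ ⧸ (𝒢.subgroupOf ℋ))),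
    ∏ q ∈ S, quotientFunc f q

variable [𝒢.IsFiniteRelIndex ℋ]

lemma esymmFun_apply (f : F) [SlashInvariantFormClass F 𝒢 k] (m : ℕ) (τ : ℍ) :
    esymmFun ℋ f m τ =
      letI := Fintype.ofFinite (ℋ ⧸ (𝒢.subgroupOf ℋ))
      ∑ S ∈ Finset.powersetCard m (Finset.univ : Finset (ℋ ⧸ (𝒢.subgroupOf ℋ))),
        ∏ q ∈ S, quotientFunc f q τ := by
  simp [esymmFun, Finset.sum_apply, Finset.prod_apply]

lemma esymmFun_zero (f : F) [SlashInvariantFormClass F 𝒢 k] :
    esymmFun ℋ f 0 = 1 := by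
  simp [esymmFun]

lemma esymmFun_slash [ℋ.HasDetPlusMinusOne] (f : F) [SlashInvariantFormClass F 𝒢 k] (m : ℕ)
    {h : GL (Fin 2) ℝ} (hh : h ∈ ℋ) :
    esymmFun ℋ f m ∣[k * m] h = esymmFun ℋ f m := by
  letI := Fintype.ofFinite (ℋ ⧸ (𝒢.subgroupOf ℋ))
  classical
  simp only [esymmFun]
  rw [SlashAction.sum_slash]
  have key : ∀ S ∈ Finset.powersetCard m (Finset.univ : Finset (ℋ ⧸ (𝒢.subgroupOf ℋ))),
      (∏ q ∈ S, quotientFunc f q) ∣[k * m] h =
        ∏ q ∈ S.map (MulAction.toPerm ((⟨h, hh⟩ : ℋ)⁻¹)).toEmbedding, quotientFunc f q := by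
    intro S hS
    have hc : S.card = m := (Finset.mem_powersetCard.mp hS).2
    rw [← hc, ModularForm.prod_slash, Finset.prod_map]
    simp [quotientFunc_smul f hh, Subgroup.HasDetPlusMinusOne.abs_det hh,
      -Matrix.GeneralLinearGroup.val_det_apply]
  rw [Finset.sum_congr rfl key]
  refine Finset.sum_bij (fun S _ => S.map (MulAction.toPerm ((⟨h, hh⟩ : ℋ)⁻¹)).toEmbedding)
    ?_ ?_ ?_ ?_
  · intro S hS
    simp only [Finset.mem_powersetCard, Finset.subset_univ, true_and] at hS ⊢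
    simpa using hS
  · intro S _ T _ hST
    exact Finset.map_injective _ hST
  · intro T hT
    refine ⟨T.map (MulAction.toPerm ((⟨h, hh⟩ : ℋ)⁻¹)).symm.toEmbedding, ?_, ?_⟩
    · simp only [Finset.mem_powersetCard, Finset.subset_univ, true_and] at hT ⊢
      simpa using hT
    · ext x
      simp
  · intro S _
    rfl

lemma quotientFunc_mdifferentiable (f : F) [ModularFormClass F 𝒢 k]
    (q : ℋ ⧸ (𝒢.subgroupOf ℋ)) : MDiff (quotientFunc f q) := by
  induction q using Quotient.inductionOn with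
  | h r => exact (ModularForm.translate f r.val⁻¹).holo'

lemma quotientFunc_isBoundedAt (f : F) [ModularFormClass F 𝒢 k]
    (q : ℋ ⧸ (𝒢.subgroupOf ℋ)) {c : OnePoint ℝ} (hc : IsCusp c ℋ) :
    c.IsBoundedAt (quotientFunc f q) k := by
  induction q using Quotient.inductionOn with
  | h r =>
    obtain ⟨r, hr⟩ := r
    refine (ModularForm.translate f r⁻¹).bdd_at_cusps' ?_
    simpa using hc.of_isFiniteRelIndex_conj hr

lemma quotientFunc_isZeroAt (f : F) [CuspFormClass F 𝒢 k]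
    (q : ℋ ⧸ (𝒢.subgroupOf ℋ)) {c : OnePoint ℝ} (hc : IsCusp c ℋ) :
    c.IsZeroAt (quotientFunc f q) k := by
  induction q using Quotient.inductionOn with
  | h r =>
    obtain ⟨r, hr⟩ := r
    refine (CuspForm.translate f r⁻¹).zero_at_cusps' ?_
    simpa using hc.of_isFiniteRelIndex_conj hr

lemma esymmFun_mdifferentiable (f : F) [ModularFormClass F 𝒢 k] (m : ℕ) :
    MDiff (esymmFun ℋ f m) := by
  letI := Fintype.ofFinite (ℋ ⧸ (𝒢.subgroupOf ℋ))
  simp only [esymmFun]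
  exact .sum fun S _ => .prod fun q _ => quotientFunc_mdifferentiable f q

lemma prod_quotientFunc_isBoundedAt (f : F) [ModularFormClass F 𝒢 k]
    (S : Finset (ℋ ⧸ (𝒢.subgroupOf ℋ))) {c : OnePoint ℝ} (hc : IsCusp c ℋ) :
    c.IsBoundedAt (∏ q ∈ S, quotientFunc f q) (k * S.card) := by
  intro γ hγ
  rw [ModularForm.prod_slash, IsBoundedAtImInfty, Filter.BoundedAtFilter]
  apply Asymptotics.IsBigO.const_smul_left
  rw [show (1 : ℍ → ℝ) = (fun x ↦ ∏ _i ∈ S, (1 : ℝ)) by ext; simp, Finset.prod_fn]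
  exact .finsetProd fun q _ => quotientFunc_isBoundedAt f q hc γ hγ

lemma prod_quotientFunc_isZeroAt (f : F) [CuspFormClass F 𝒢 k]
    (S : Finset (ℋ ⧸ (𝒢.subgroupOf ℋ))) (hS : S.Nonempty) {c : OnePoint ℝ} (hc : IsCusp c ℋ) :
    c.IsZeroAt (∏ q ∈ S, quotientFunc f q) (k * S.card) := by
  classical
  intro γ hγ
  obtain ⟨q₀, hq₀⟩ := hS
  have hb : ∀ q ∈ S.erase q₀, IsBoundedAtImInfty (quotientFunc f q ∣[k] γ) := fun q _ =>
    quotientFunc_isBoundedAt f q hc γ hγ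
  have hz : IsZeroAtImInfty (quotientFunc f q₀ ∣[k] γ) := quotientFunc_isZeroAt f q₀ hc γ hγ
  rw [ModularForm.prod_slash, ← Finset.mul_prod_erase S _ hq₀]
  have h1 : IsBoundedAtImInfty (∏ q ∈ S.erase q₀, quotientFunc f q ∣[k] γ) := by
    rw [IsBoundedAtImInfty, Filter.BoundedAtFilter]
    rw [show (1 : ℍ → ℝ) = (fun x ↦ ∏ _i ∈ S.erase q₀, (1 : ℝ)) by ext; simp, Finset.prod_fn]
    exact .finsetProd fun q hq => hb q hq
  have h2 : IsZeroAtImInfty (quotientFunc f q₀ ∣[k] γ * ∏ q ∈ S.erase q₀, quotientFunc f q ∣[k] γ) :=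
    hz.mul_boundedAtFilter h1  
  exact h2.smul _


lemma esymmFun_isBoundedAt (f : F) [ModularFormClass F 𝒢 k] (m : ℕ)
    {c : OnePoint ℝ} (hc : IsCusp c ℋ) :
    c.IsBoundedAt (esymmFun ℋ f m) (k * m) := by
  letI := Fintype.ofFinite (ℋ ⧸ (𝒢.subgroupOf ℋ))
  intro γ hγ
  simp only [esymmFun]
  rw [SlashAction.sum_slash, IsBoundedAtImInfty, Filter.BoundedAtFilter, Finset.sum_fn]
  refine .fun_sum fun S hS => ?_
  have hc' : S.card = m := (Finset.mem_powersetCard.mp hS).2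
  have := prod_quotientFunc_isBoundedAt f S hc γ hγ
  rwa [hc'] at this

lemma esymmFun_isZeroAt (f : F) [CuspFormClass F 𝒢 k] {m : ℕ} (hm : 1 ≤ m)
    {c : OnePoint ℝ} (hc : IsCusp c ℋ) :
    c.IsZeroAt (esymmFun ℋ f m) (k * m) := by
  letI := Fintype.ofFinite (ℋ ⧸ (𝒢.subgroupOf ℋ))
  intro γ hγ
  simp only [esymmFun]
  rw [SlashAction.sum_slash, IsZeroAtImInfty, Filter.ZeroAtFilter]
  rw [show (0 : ℂ) = ∑ _S ∈ Finset.powersetCard m
      (Finset.univ : Finset (ℋ ⧸ (𝒢.subgroupOf ℋ))), (0 : ℂ) by simp]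
  simp only [Finset.sum_fn]
  refine tendsto_finsetSum _ fun S hS => ?_
  have hc' : S.card = m := (Finset.mem_powersetCard.mp hS).2
  have hne : S.Nonempty := by
    rw [← Finset.card_pos, hc']; exact hm
  have := prod_quotientFunc_isZeroAt f S hne hc γ hγ
  rwa [hc'] at this

/-- The `m`-th elementary symmetric function of the conjugates, as a modular form for `ℋ`. -/
def esymmMF (ℋ : Subgroup (GL (Fin 2) ℝ)) [𝒢.IsFiniteRelIndex ℋ] [ℋ.HasDetPlusMinusOne]
    (f : F) [ModularFormClass F 𝒢 k] (m : ℕ) : ModularForm ℋ (k * m) where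
  toFun := esymmFun ℋ f m
  slash_action_eq' _ hh := esymmFun_slash f m hh
  holo' := esymmFun_mdifferentiable f m
  bdd_at_cusps' hc := esymmFun_isBoundedAt f m hc

@[simp] lemma coe_esymmMF [ℋ.HasDetPlusMinusOne] (f : F) [ModularFormClass F 𝒢 k] (m : ℕ) :
    ⇑(esymmMF ℋ f m) = esymmFun ℋ f m := rfl

/-- The `m`-th elementary symmetric function (`1 ≤ m`) of the conjugates of a cusp form,
as a cusp form for `ℋ`. -/
def esymmCF (ℋ : Subgroup (GL (Fin 2) ℝ)) [𝒢.IsFiniteRelIndex ℋ] [ℋ.HasDetPlusMinusOne]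
    (f : F) [CuspFormClass F 𝒢 k] {m : ℕ} (hm : 1 ≤ m) : CuspForm ℋ (k * m) where
  toFun := esymmFun ℋ f m
  slash_action_eq' _ hh := esymmFun_slash f m hh
  holo' := esymmFun_mdifferentiable f m
  zero_at_cusps' hc := esymmFun_isZeroAt f hm hc

@[simp] lemma coe_esymmCF [ℋ.HasDetPlusMinusOne] (f : F) [CuspFormClass F 𝒢 k] {m : ℕ}
    (hm : 1 ≤ m) : ⇑(esymmCF ℋ f hm) = esymmFun ℋ f m := rfl

/-- Pointwise Vieta identity: the characteristic polynomial of the conjugates. -/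
lemma prod_sub_quotientFunc (f : F) [SlashInvariantFormClass F 𝒢 k] (τ : ℍ) (X : ℂ) :
    (letI := Fintype.ofFinite (ℋ ⧸ (𝒢.subgroupOf ℋ))
      ∏ q : ℋ ⧸ (𝒢.subgroupOf ℋ), (X - quotientFunc f q τ)) =
      ∑ m ∈ Finset.range (Nat.card (ℋ ⧸ (𝒢.subgroupOf ℋ)) + 1),
        (-1) ^ m * esymmFun ℋ f m τ * X ^ (Nat.card (ℋ ⧸ (𝒢.subgroupOf ℋ)) - m) := by
  letI := Fintype.ofFinite (ℋ ⧸ (𝒢.subgroupOf ℋ))
  have h := congrArg (Polynomial.eval X) (Multiset.prod_X_sub_X_eq_sum_esymm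
    ((Finset.univ : Finset (ℋ ⧸ (𝒢.subgroupOf ℋ))).val.map (fun q => quotientFunc f q τ)))
  simp only [Multiset.map_map, Function.comp_def, Multiset.card_map, Finset.card_val,
    Finset.card_univ, Polynomial.eval_finsetSum, Polynomial.eval_mul, Polynomial.eval_pow,
    Polynomial.eval_neg, Polynomial.eval_one, Polynomial.eval_C, Polynomial.eval_X,
    Finset.esymm_map_val] at h
  rw [Polynomial.eval_multiset_prod, Multiset.map_map] at h
  simp only [Function.comp_def, Polynomial.eval_sub, Polynomial.eval_X, Polynomial.eval_C] at h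
  rw [Nat.card_eq_fintype_card]
  rw [← Finset.prod_eq_multiset_prod] at h
  rw [h]
  refine Finset.sum_congr rfl fun m _ => ?_
  rw [esymmFun_apply, mul_assoc]

/-- A `𝒢`-invariant form is a root of the characteristic polynomial of its conjugates. -/
lemma sum_esymmFun_mul_pow_eq_zero (f : F) [SlashInvariantFormClass F 𝒢 k] (τ : ℍ) :
    ∑ m ∈ Finset.range (Nat.card (ℋ ⧸ (𝒢.subgroupOf ℋ)) + 1),
      (-1) ^ m * esymmFun ℋ f m τ * (f τ) ^ (Nat.card (ℋ ⧸ (𝒢.subgroupOf ℋ)) - m) = 0 := by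
  letI := Fintype.ofFinite (ℋ ⧸ (𝒢.subgroupOf ℋ))
  rw [← prod_sub_quotientFunc f τ (f τ)]
  refine Finset.prod_eq_zero (Finset.mem_univ (⟦1⟧ : ℋ ⧸ (𝒢.subgroupOf ℋ))) ?_
  simp

section Gamma0

open CongruenceSubgroup

/-- Integrality of cusp forms of level `Γ₀(N)` over level one cusp forms: `f` is a root of a
monic polynomial whose lower coefficients are level one cusp forms of the appropriate weights. -/
theorem exists_monic_cuspidal_relation (N : ℕ) [NeZero N] (k : ℤ)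
    (f : CuspForm (Gamma0 N) k) :
    ∃ (μ : ℕ) (b : (m : ℕ) → CuspForm 𝒮ℒ (k * m)), 0 < μ ∧
      ∀ τ : ℍ, f τ ^ μ + ∑ m ∈ Finset.Icc 1 μ, b m τ * f τ ^ (μ - m) = 0 := by
  classical
  set μ := Nat.card (𝒮ℒ ⧸ ((Gamma0 N : Subgroup (GL (Fin 2) ℝ)).subgroupOf 𝒮ℒ)) with hμ
  refine ⟨μ, fun m => if hm : 1 ≤ m then (-1 : ℂ) ^ m • esymmCF 𝒮ℒ f hm else 0, ?_, ?_⟩
  · exact Nat.card_pos
  · intro τ
    have h := sum_esymmFun_mul_pow_eq_zero (ℋ := 𝒮ℒ) f τ
    rw [← hμ, Finset.range_eq_Ico, Finset.sum_eq_sum_Ico_succ_bot (Nat.succ_pos μ)] at h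
    simp only [pow_zero, esymmFun_zero, Pi.one_apply, one_mul, Nat.sub_zero, zero_add] at h
    rw [← h]
    congr 1
    refine Finset.sum_congr ?_ fun m hm => ?_
    · ext m; simp
    · have hm1 : 1 ≤ m := (Finset.mem_Icc.mp hm).1
      simp [hm1]

end Gamma0

end

end Fermat.Agent.S23
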