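import Fermat.Agent.S23.CharPoly
import Mathlib.Algebra.Polynomial.Div
import Mathlib.Algebra.Polynomial.BigOperators
import Mathlib.Algebra.Polynomial.Derivative

set_option autoImplicit false
set_option linter.style.haveILetI false
set_option linter.unusedSectionVars false

open UpperHalfPlane SlashInvariantForm
open scoped ModularForm MatrixGroups Manifold Topology

namespace Fermat.Agent.S23

noncomputable section

variable {𝒢 ℋ : Subgroup (GL (Fin 2) ℝ)} {F T : Type*} [FunLike F ℍ ℂ] [FunLike T ℍ ℂ]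
  {k w : ℤ}

/-- The mixed power sum `∑_q f_q * t_q ^ n` of the conjugates of `f` and `t`. -/
def mixSumFun (ℋ : Subgroup (GL (Fin 2) ℝ)) [𝒢.IsFiniteRelIndex ℋ] (f : F) (t : T)
    [SlashInvariantFormClass F 𝒢 k] [SlashInvariantFormClass T 𝒢 w] (n : ℕ) : ℍ → ℂ :=
  letI := Fintype.ofFinite (ℋ ⧸ (𝒢.subgroupOf ℋ))
  ∑ q : ℋ ⧸ (𝒢.subgroupOf ℋ), quotientFunc f q * quotientFunc t q ^ n

variable [𝒢.IsFiniteRelIndex ℋ]

lemma mixSumFun_apply (f : F) (t : T)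
    [SlashInvariantFormClass F 𝒢 k] [SlashInvariantFormClass T 𝒢 w] (n : ℕ) (τ : ℍ) :
    mixSumFun ℋ f t n τ =
      letI := Fintype.ofFinite (ℋ ⧸ (𝒢.subgroupOf ℋ))
      ∑ q : ℋ ⧸ (𝒢.subgroupOf ℋ), quotientFunc f q τ * quotientFunc t q τ ^ n := by
  simp [mixSumFun, Finset.sum_apply]

lemma pow_slash_of_abs_det {g : GL (Fin 2) ℝ} (hg : |g.det.val| = 1) (G : ℍ → ℂ) (n : ℕ) :
    (G ^ n) ∣[w * n] g = (G ∣[w] g) ^ n := by
  have h := ModularForm.prod_slash (k := w) (g := g) (f := fun _ : Fin n => G)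
    (s := Finset.univ)
  simp only [Finset.prod_const, Finset.card_univ, Fintype.card_fin] at h
  rw [h, hg]
  simp

lemma mul_pow_slash_of_abs_det {g : GL (Fin 2) ℝ} (hg : |g.det.val| = 1) (A G : ℍ → ℂ)
    (n : ℕ) :
    (A * G ^ n) ∣[k + w * n] g = (A ∣[k] g) * (G ∣[w] g) ^ n := by
  rw [ModularForm.mul_slash, pow_slash_of_abs_det hg, hg]
  simp

lemma mixSumFun_slash [ℋ.HasDetPlusMinusOne] (f : F) (t : T)
    [SlashInvariantFormClass F 𝒢 k] [SlashInvariantFormClass T 𝒢 w] (n : ℕ)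
    {h : GL (Fin 2) ℝ} (hh : h ∈ ℋ) :
    mixSumFun ℋ f t n ∣[k + w * n] h = mixSumFun ℋ f t n := by
  letI := Fintype.ofFinite (ℋ ⧸ (𝒢.subgroupOf ℋ))
  simp only [mixSumFun]
  rw [SlashAction.sum_slash]
  have hdet : |h.det.val| = 1 := Subgroup.HasDetPlusMinusOne.abs_det hh
  simp only [mul_pow_slash_of_abs_det hdet, quotientFunc_smul _ hh]
  exact Equiv.sum_comp (MulAction.toPerm ((⟨h, hh⟩ : ℋ)⁻¹))
    (fun q => quotientFunc f q * quotientFunc t q ^ n)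

lemma pow_slash_general (g : GL (Fin 2) ℝ) (G : ℍ → ℂ) (n : ℕ) :
    (G ^ n) ∣[w * n] g = |g.det.val| ^ ((n : ℤ) - 1) • (G ∣[w] g) ^ n := by
  have h := ModularForm.prod_slash (k := w) (g := g) (f := fun _ : Fin n => G)
    (s := Finset.univ)
  simpa only [Finset.prod_const, Finset.card_univ, Fintype.card_fin] using h

lemma isBoundedAtImInfty_pow {G : ℍ → ℂ} (hG : IsBoundedAtImInfty G) (n : ℕ) :
    IsBoundedAtImInfty (G ^ n) := by
  induction n with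
  | zero =>
    simp only [pow_zero]
    exact Filter.const_boundedAtFilter _ (1 : ℂ)
  | succ n ih =>
    rw [pow_succ]
    exact ih.mul hG

lemma isBoundedAtImInfty_mul_pow_slash {g : GL (Fin 2) ℝ} {A G : ℍ → ℂ} (n : ℕ)
    (hA : IsBoundedAtImInfty (A ∣[k] g)) (hG : IsBoundedAtImInfty (G ∣[w] g)) :
    IsBoundedAtImInfty ((A * G ^ n) ∣[k + w * n] g) := by
  rw [ModularForm.mul_slash, pow_slash_general]
  have h1 : IsBoundedAtImInfty ((G ∣[w] g) ^ n) := isBoundedAtImInfty_pow hG n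
  have h2 : IsBoundedAtImInfty (|g.det.val| ^ ((n : ℤ) - 1) • (G ∣[w] g) ^ n) := h1.smul _
  exact (hA.mul h2).smul _

lemma isZeroAtImInfty_mul_pow_slash {g : GL (Fin 2) ℝ} {A G : ℍ → ℂ} (n : ℕ)
    (hA : IsZeroAtImInfty (A ∣[k] g)) (hG : IsBoundedAtImInfty (G ∣[w] g)) :
    IsZeroAtImInfty ((A * G ^ n) ∣[k + w * n] g) := by
  rw [ModularForm.mul_slash, pow_slash_general]
  have h1 : IsBoundedAtImInfty ((G ∣[w] g) ^ n) := isBoundedAtImInfty_pow hG n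
  have h2 : IsBoundedAtImInfty (|g.det.val| ^ ((n : ℤ) - 1) • (G ∣[w] g) ^ n) := h1.smul _
  exact (hA.mul_boundedAtFilter h2).smul _

lemma mixSumFun_mdifferentiable (f : F) (t : T) [ModularFormClass F 𝒢 k]
    [ModularFormClass T 𝒢 w] (n : ℕ) : MDiff (mixSumFun ℋ f t n) := by
  letI := Fintype.ofFinite (ℋ ⧸ (𝒢.subgroupOf ℋ))
  simp only [mixSumFun]
  exact .sum fun q _ => (quotientFunc_mdifferentiable f q).mul
    ((quotientFunc_mdifferentiable t q).pow n)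

lemma mixSumFun_isBoundedAt (f : F) (t : T) [ModularFormClass F 𝒢 k]
    [ModularFormClass T 𝒢 w] (n : ℕ) {c : OnePoint ℝ} (hc : IsCusp c ℋ) :
    c.IsBoundedAt (mixSumFun ℋ f t n) (k + w * n) := by
  letI := Fintype.ofFinite (ℋ ⧸ (𝒢.subgroupOf ℋ))
  intro γ hγ
  simp only [mixSumFun]
  rw [SlashAction.sum_slash, IsBoundedAtImInfty, Filter.BoundedAtFilter, Finset.sum_fn]
  refine .fun_sum fun q _ => ?_
  exact isBoundedAtImInfty_mul_pow_slash n (quotientFunc_isBoundedAt f q hc γ hγ)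
    (quotientFunc_isBoundedAt t q hc γ hγ)

lemma mixSumFun_isZeroAt (f : F) (t : T) [CuspFormClass F 𝒢 k]
    [ModularFormClass T 𝒢 w] (n : ℕ) {c : OnePoint ℝ} (hc : IsCusp c ℋ) :
    c.IsZeroAt (mixSumFun ℋ f t n) (k + w * n) := by
  letI := Fintype.ofFinite (ℋ ⧸ (𝒢.subgroupOf ℋ))
  intro γ hγ
  simp only [mixSumFun]
  rw [SlashAction.sum_slash, IsZeroAtImInfty, Filter.ZeroAtFilter]
  rw [show (0 : ℂ) = ∑ _q : ℋ ⧸ (𝒢.subgroupOf ℋ), (0 : ℂ) by simp]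
  simp only [Finset.sum_fn]
  refine tendsto_finsetSum _ fun q _ => ?_
  exact isZeroAtImInfty_mul_pow_slash n (quotientFunc_isZeroAt f q hc γ hγ)
    (quotientFunc_isBoundedAt t q hc γ hγ)

/-- The mixed power sum as a modular form for `ℋ`. -/
def mixSumMF (ℋ : Subgroup (GL (Fin 2) ℝ)) [𝒢.IsFiniteRelIndex ℋ] [ℋ.HasDetPlusMinusOne]
    (f : F) (t : T) [ModularFormClass F 𝒢 k] [ModularFormClass T 𝒢 w] (n : ℕ) :
    ModularForm ℋ (k + w * n) where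
  toFun := mixSumFun ℋ f t n
  slash_action_eq' _ hh := mixSumFun_slash f t n hh
  holo' := mixSumFun_mdifferentiable f t n
  bdd_at_cusps' hc := mixSumFun_isBoundedAt f t n hc

@[simp] lemma coe_mixSumMF [ℋ.HasDetPlusMinusOne] (f : F) (t : T) [ModularFormClass F 𝒢 k]
    [ModularFormClass T 𝒢 w] (n : ℕ) : ⇑(mixSumMF ℋ f t n) = mixSumFun ℋ f t n := rfl

/-- The mixed power sum of a cusp form `f` and a modular form `t`, as a cusp form for `ℋ`. -/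
def mixSumCF (ℋ : Subgroup (GL (Fin 2) ℝ)) [𝒢.IsFiniteRelIndex ℋ] [ℋ.HasDetPlusMinusOne]
    (f : F) (t : T) [CuspFormClass F 𝒢 k] [ModularFormClass T 𝒢 w] (n : ℕ) :
    CuspForm ℋ (k + w * n) where
  toFun := mixSumFun ℋ f t n
  slash_action_eq' _ hh := mixSumFun_slash f t n hh
  holo' := mixSumFun_mdifferentiable f t n
  zero_at_cusps' hc := mixSumFun_isZeroAt f t n hc

@[simp] lemma coe_mixSumCF [ℋ.HasDetPlusMinusOne] (f : F) (t : T) [CuspFormClass F 𝒢 k]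
    [ModularFormClass T 𝒢 w] (n : ℕ) : ⇑(mixSumCF ℋ f t n) = mixSumFun ℋ f t n := rfl

section Algebra

open Polynomial in
/-- Euler's form of Lagrange interpolation, as an identity in a commutative ring. -/
lemma euler_lagrange_identity {R : Type*} [CommRing R] [Nontrivial R] {ι : Type*} [Fintype ι]
    [DecidableEq ι] (x y : ι → R) (i₀ : ι) :
    y i₀ * ∏ l ∈ Finset.univ.erase i₀, (x i₀ - x l) =
      ∑ j ∈ Finset.range (Fintype.card ι),
        (∑ i ∈ Finset.Icc (j + 1) (Fintype.card ι),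
          (∏ l, (X - C (x l))).coeff i * ∑ l, y l * x l ^ (i - (j + 1))) * x i₀ ^ j := by
  set P : R[X] := ∏ l, (X - C (x l)) with hP
  have hdeg : P.natDegree = Fintype.card ι := by
    rw [hP, natDegree_prod_of_monic _ _ (fun l _ => monic_X_sub_C (x l))]
    simp
  have hQ : ∀ l, P /ₘ (X - C (x l)) = ∏ l' ∈ Finset.univ.erase l, (X - C (x l')) := by
    intro l
    rw [hP, ← Finset.mul_prod_erase Finset.univ _ (Finset.mem_univ l)]
    exact mul_divByMonic_cancel_left _ (monic_X_sub_C (x l))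
  set G : R[X] := ∑ l, C (y l) * (P /ₘ (X - C (x l))) with hG
  have hpos : 0 < Fintype.card ι := Fintype.card_pos_iff.mpr ⟨i₀⟩
  have hGdeg : G.natDegree < Fintype.card ι := by
    have h1 : G.natDegree ≤ Fintype.card ι - 1 := by
      rw [hG]
      refine natDegree_sum_le_of_forall_le _ _ fun l _ => ?_
      refine (natDegree_C_mul_le _ _).trans ?_
      rw [hQ, natDegree_prod_of_monic _ _ (fun l' _ => monic_X_sub_C (x l'))]
      simp
    omega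
  have heval : G.eval (x i₀) = y i₀ * ∏ l ∈ Finset.univ.erase i₀, (x i₀ - x l) := by
    rw [hG, eval_finsetSum]
    rw [Finset.sum_eq_single i₀]
    · rw [hQ, eval_mul, eval_C, eval_prod]
      simp
    · intro l _ hl
      rw [hQ, eval_mul, eval_prod]
      have : ∏ l' ∈ Finset.univ.erase l, eval (x i₀) (X - C (x l')) = 0 := by
        refine Finset.prod_eq_zero (i := i₀) ?_ ?_
        · simp [Ne.symm hl]
        · simp
      rw [this, mul_zero]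
    · intro h; exact absurd (Finset.mem_univ _) h
  have hcoeff : ∀ j, G.coeff j = ∑ i ∈ Finset.Icc (j + 1) (Fintype.card ι),
      P.coeff i * ∑ l, y l * x l ^ (i - (j + 1)) := by
    intro j
    rw [hG, finsetSum_coeff]
    simp only [coeff_C_mul, coeff_divByMonic_X_sub_C, hdeg]
    simp only [Finset.mul_sum]
    rw [Finset.sum_comm]
    refine Finset.sum_congr rfl fun i _ => Finset.sum_congr rfl fun l _ => ?_
    ring
  rw [← heval, eval_eq_sum_range' hGdeg]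
  exact Finset.sum_congr rfl fun j _ => by rw [hcoeff]

open Polynomial in
/-- The derivative of `∏ (X - x_l)` at the root `x_{i₀}`. -/
lemma derivative_prod_identity {R : Type*} [CommRing R] [Nontrivial R] {ι : Type*} [Fintype ι]
    [DecidableEq ι] (x : ι → R) (i₀ : ι) :
    ∏ l ∈ Finset.univ.erase i₀, (x i₀ - x l) =
      ∑ j ∈ Finset.range (Fintype.card ι),
        ((j + 1 : ℕ) : R) * (∏ l, (X - C (x l))).coeff (j + 1) * x i₀ ^ j := by
  set P : R[X] := ∏ l, (X - C (x l)) with hP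
  have hdeg : P.natDegree = Fintype.card ι := by
    rw [hP, natDegree_prod_of_monic _ _ (fun l _ => monic_X_sub_C (x l))]
    simp
  have hpos : 0 < Fintype.card ι := Fintype.card_pos_iff.mpr ⟨i₀⟩
  have h1 : (derivative P).eval (x i₀) = ∏ l ∈ Finset.univ.erase i₀, (x i₀ - x l) := by
    have : P = (X - C (x i₀)) * ∏ l ∈ Finset.univ.erase i₀, (X - C (x l)) := by
      rw [hP]
      exact (Finset.mul_prod_erase Finset.univ (fun l => X - C (x l)) (Finset.mem_univ i₀)).symm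
    rw [this, derivative_mul, eval_add, eval_mul, eval_mul, eval_prod]
    simp
  have h2 : (derivative P).natDegree < Fintype.card ι := by
    have := natDegree_derivative_le P
    omega
  rw [← h1, eval_eq_sum_range' h2]
  refine Finset.sum_congr rfl fun j _ => ?_
  rw [coeff_derivative]
  push_cast
  ring

end Algebra

section Relation

variable [ℋ.HasDetOne]

/-- Coefficient `j` of the numerator in Euler's form of Lagrange interpolation, as a cusp form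
for `ℋ` of weight `k + w * (μ - 1 - j)`. -/
def lagrangeNumCF (ℋ : Subgroup (GL (Fin 2) ℝ)) [𝒢.IsFiniteRelIndex ℋ] [ℋ.HasDetOne]
    (f : F) (t : T) [CuspFormClass F 𝒢 k] [ModularFormClass T 𝒢 w] (j : ℕ) :
    CuspForm ℋ (k + w * ((Nat.card (ℋ ⧸ (𝒢.subgroupOf ℋ)) : ℤ) - 1 - j)) :=
  ∑ i ∈ Finset.Icc (j + 1) (Nat.card (ℋ ⧸ (𝒢.subgroupOf ℋ))),
    if h : j + 1 ≤ i ∧ i ≤ Nat.card (ℋ ⧸ (𝒢.subgroupOf ℋ)) then
      ((-1 : ℂ) ^ (Nat.card (ℋ ⧸ (𝒢.subgroupOf ℋ)) - i)) •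
        CuspForm.mcast (by
          rw [Nat.cast_sub h.2, Nat.cast_sub h.1]; push_cast; ring)
          ((mixSumCF ℋ f t (i - (j + 1))).mulModularForm
            (esymmMF ℋ t (Nat.card (ℋ ⧸ (𝒢.subgroupOf ℋ)) - i)))
    else 0

/-- Coefficient `j` of the denominator `P_t'(t)`, as a modular form for `ℋ` of weight
`w * (μ - 1 - j)`. -/
def lagrangeDenMF (ℋ : Subgroup (GL (Fin 2) ℝ)) [𝒢.IsFiniteRelIndex ℋ] [ℋ.HasDetOne]
    (t : T) [ModularFormClass T 𝒢 w] (j : ℕ) :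
    ModularForm ℋ (w * ((Nat.card (ℋ ⧸ (𝒢.subgroupOf ℋ)) : ℤ) - 1 - j)) :=
  if h : j + 1 ≤ Nat.card (ℋ ⧸ (𝒢.subgroupOf ℋ)) then
    (((j + 1 : ℕ) : ℂ) * (-1 : ℂ) ^ (Nat.card (ℋ ⧸ (𝒢.subgroupOf ℋ)) - (j + 1))) •
      ModularForm.mcast (by rw [Nat.cast_sub h]; push_cast; ring)
        (esymmMF ℋ t (Nat.card (ℋ ⧸ (𝒢.subgroupOf ℋ)) - (j + 1)))
  else 0

open Polynomial in
lemma coeff_prod_X_sub_C_quotientFunc [inst : Fintype (ℋ ⧸ (𝒢.subgroupOf ℋ))]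
    (t : T) [SlashInvariantFormClass T 𝒢 w] (τ : ℍ) {i : ℕ}
    (hi : i ≤ Nat.card (ℋ ⧸ (𝒢.subgroupOf ℋ))) :
    (∏ q : ℋ ⧸ (𝒢.subgroupOf ℋ), (X - C (quotientFunc t q τ))).coeff i =
      (-1) ^ (Nat.card (ℋ ⧸ (𝒢.subgroupOf ℋ)) - i) *
        esymmFun ℋ t (Nat.card (ℋ ⧸ (𝒢.subgroupOf ℋ)) - i) τ := by
  obtain rfl : inst = Fintype.ofFinite (ℋ ⧸ (𝒢.subgroupOf ℋ)) := Subsingleton.elim _ _
  letI := Fintype.ofFinite (ℋ ⧸ (𝒢.subgroupOf ℋ))
  have hcard : Multiset.card ((Finset.univ : Finset (ℋ ⧸ (𝒢.subgroupOf ℋ))).val.map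
      (fun q => quotientFunc t q τ)) = Nat.card (ℋ ⧸ (𝒢.subgroupOf ℋ)) := by
    simp [Nat.card_eq_fintype_card]
  have h := Multiset.prod_X_sub_C_coeff
    ((Finset.univ : Finset (ℋ ⧸ (𝒢.subgroupOf ℋ))).val.map (fun q => quotientFunc t q τ))
    (k := i) (by rw [hcard]; exact hi)
  rw [hcard, Multiset.map_map, Finset.esymm_map_val] at h
  rw [esymmFun_apply, ← h, Finset.prod_eq_multiset_prod]
  rfl

end Relation

section Relation2

variable [ℋ.HasDetOne]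

lemma cuspForm_sum_apply {Γ : Subgroup (GL (Fin 2) ℝ)} {a : ℤ} {ι : Type*} (s : Finset ι)
    (g : ι → CuspForm Γ a) (τ : ℍ) : (∑ i ∈ s, g i) τ = ∑ i ∈ s, g i τ := by
  classical
  induction s using Finset.induction_on with
  | empty => simp
  | insert i s hi ih => simp [Finset.sum_insert hi, ih]

lemma lagrangeNumCF_apply (f : F) (t : T) [CuspFormClass F 𝒢 k] [ModularFormClass T 𝒢 w]
    (j : ℕ) (τ : ℍ) :
    lagrangeNumCF ℋ f t j τ =
      ∑ i ∈ Finset.Icc (j + 1) (Nat.card (ℋ ⧸ (𝒢.subgroupOf ℋ))),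
        (-1) ^ (Nat.card (ℋ ⧸ (𝒢.subgroupOf ℋ)) - i) *
          (mixSumFun ℋ f t (i - (j + 1)) τ *
            esymmFun ℋ t (Nat.card (ℋ ⧸ (𝒢.subgroupOf ℋ)) - i) τ) := by
  rw [lagrangeNumCF, cuspForm_sum_apply]
  refine Finset.sum_congr rfl fun i hi => ?_
  rw [dif_pos (Finset.mem_Icc.mp hi)]
  rfl

lemma lagrangeDenMF_apply (t : T) [ModularFormClass T 𝒢 w] {j : ℕ}
    (hj : j < Nat.card (ℋ ⧸ (𝒢.subgroupOf ℋ))) (τ : ℍ) :
    lagrangeDenMF ℋ t j τ =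
      ((j + 1 : ℕ) : ℂ) * (-1) ^ (Nat.card (ℋ ⧸ (𝒢.subgroupOf ℋ)) - (j + 1)) *
        esymmFun ℋ t (Nat.card (ℋ ⧸ (𝒢.subgroupOf ℋ)) - (j + 1)) τ := by
  rw [lagrangeDenMF, dif_pos (Nat.succ_le_of_lt hj)]
  rfl

/-- The denominator `∑_j d_j t^j` equals `∏_{q ≠ 1} (t - t_q)`. -/
theorem lagrange_den_eq [Fintype (ℋ ⧸ (𝒢.subgroupOf ℋ))] [DecidableEq (ℋ ⧸ (𝒢.subgroupOf ℋ))]
    (t : T) [ModularFormClass T 𝒢 w] (τ : ℍ) :
    ∑ j ∈ Finset.range (Nat.card (ℋ ⧸ (𝒢.subgroupOf ℋ))), lagrangeDenMF ℋ t j τ * t τ ^ j =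
      ∏ q ∈ (Finset.univ : Finset (ℋ ⧸ (𝒢.subgroupOf ℋ))).erase ⟦1⟧,
          (t τ - quotientFunc t q τ) := by
  have h := derivative_prod_identity (fun q : ℋ ⧸ (𝒢.subgroupOf ℋ) => quotientFunc t q τ) ⟦1⟧
  have h1 : quotientFunc t (⟦1⟧ : ℋ ⧸ (𝒢.subgroupOf ℋ)) τ = t τ := by simp
  simp only [h1] at h
  rw [h, ← Nat.card_eq_fintype_card]
  refine Finset.sum_congr rfl fun j hj => ?_
  have hj' : j < Nat.card (ℋ ⧸ (𝒢.subgroupOf ℋ)) := Finset.mem_range.mp hj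
  rw [lagrangeDenMF_apply t hj', coeff_prod_X_sub_C_quotientFunc t τ (Nat.succ_le_of_lt hj')]
  ring

/-- Euler's form of Lagrange interpolation for a cusp form `f` and a modular form `t`. -/
theorem lagrange_relation (f : F) (t : T) [CuspFormClass F 𝒢 k] [ModularFormClass T 𝒢 w]
    (τ : ℍ) :
    f τ * ∑ j ∈ Finset.range (Nat.card (ℋ ⧸ (𝒢.subgroupOf ℋ))),
        lagrangeDenMF ℋ t j τ * t τ ^ j =
      ∑ j ∈ Finset.range (Nat.card (ℋ ⧸ (𝒢.subgroupOf ℋ))),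
        lagrangeNumCF ℋ f t j τ * t τ ^ j := by
  letI := Fintype.ofFinite (ℋ ⧸ (𝒢.subgroupOf ℋ))
  haveI := Classical.decEq (ℋ ⧸ (𝒢.subgroupOf ℋ))
  rw [lagrange_den_eq]
  have h := euler_lagrange_identity (fun q : ℋ ⧸ (𝒢.subgroupOf ℋ) => quotientFunc t q τ)
    (fun q : ℋ ⧸ (𝒢.subgroupOf ℋ) => quotientFunc f q τ) ⟦1⟧
  have h1 : quotientFunc t (⟦1⟧ : ℋ ⧸ (𝒢.subgroupOf ℋ)) τ = t τ := by simp
  have h2 : quotientFunc f (⟦1⟧ : ℋ ⧸ (𝒢.subgroupOf ℋ)) τ = f τ := by simp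
  simp only [h1, h2] at h
  rw [h, ← Nat.card_eq_fintype_card]
  refine Finset.sum_congr rfl fun j _ => ?_
  rw [lagrangeNumCF_apply]
  congr 1
  refine Finset.sum_congr rfl fun i hi => ?_
  rw [coeff_prod_X_sub_C_quotientFunc t τ (Finset.mem_Icc.mp hi).2, mixSumFun_apply]
  ring

end Relation2

section Final

variable [ℋ.HasDetOne]

/-- The denominator of the Lagrange relation, as a function on `ℍ`. -/
def lagrangeDenFun (ℋ : Subgroup (GL (Fin 2) ℝ)) [𝒢.IsFiniteRelIndex ℋ] [ℋ.HasDetOne]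
    (t : T) [ModularFormClass T 𝒢 w] : ℍ → ℂ := fun τ =>
  ∑ j ∈ Finset.range (Nat.card (ℋ ⧸ (𝒢.subgroupOf ℋ))), lagrangeDenMF ℋ t j τ * t τ ^ j

/-- The numerator of the Lagrange relation, as a function on `ℍ`. -/
def lagrangeNumFun (ℋ : Subgroup (GL (Fin 2) ℝ)) [𝒢.IsFiniteRelIndex ℋ] [ℋ.HasDetOne]
    (f : F) (t : T) [CuspFormClass F 𝒢 k] [ModularFormClass T 𝒢 w] : ℍ → ℂ := fun τ =>
  ∑ j ∈ Finset.range (Nat.card (ℋ ⧸ (𝒢.subgroupOf ℋ))), lagrangeNumCF ℋ f t j τ * t τ ^ j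

lemma lagrange_relation_fun (f : F) (t : T) [CuspFormClass F 𝒢 k] [ModularFormClass T 𝒢 w] :
    ⇑f * lagrangeDenFun ℋ t = lagrangeNumFun ℋ f t := by
  ext τ
  exact lagrange_relation f t τ

/-- If no nontrivial conjugate of `t` equals `t`, the denominator is not identically zero. -/
theorem lagrangeDenFun_ne_zero (t : T) [ModularFormClass T 𝒢 w]
    (ht : ∀ q : ℋ ⧸ (𝒢.subgroupOf ℋ), q ≠ ⟦1⟧ → quotientFunc t q ≠ ⇑t) :
    lagrangeDenFun ℋ t ≠ 0 := by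
  letI := Fintype.ofFinite (ℋ ⧸ (𝒢.subgroupOf ℋ))
  haveI := Classical.decEq (ℋ ⧸ (𝒢.subgroupOf ℋ))
  have h : lagrangeDenFun ℋ t =
      ∏ q ∈ (Finset.univ : Finset (ℋ ⧸ (𝒢.subgroupOf ℋ))).erase ⟦1⟧,
        (⇑t - quotientFunc t q) := by
    ext τ
    simp only [lagrangeDenFun, lagrange_den_eq, Finset.prod_apply, Pi.sub_apply]
  rw [h, Ne, UpperHalfPlane.prod_eq_zero_iff]
  · rintro ⟨q, hq, hq0⟩
    exact ht q (Finset.ne_of_mem_erase hq) (sub_eq_zero.mp hq0).symm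
  · intro q _
    exact (ModularFormClass.holo t).sub (quotientFunc_mdifferentiable t q)

end Final

section RelationMF

variable [ℋ.HasDetOne]

lemma modularForm_sum_apply {Γ : Subgroup (GL (Fin 2) ℝ)} {a : ℤ} {ι : Type*} (s : Finset ι)
    (g : ι → ModularForm Γ a) (τ : ℍ) : (∑ i ∈ s, g i) τ = ∑ i ∈ s, g i τ := by
  classical
  induction s using Finset.induction_on with
  | empty => simp
  | insert i s hi ih => simp [Finset.sum_insert hi, ih]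

/-- Coefficient `j` of the numerator in Euler's form of Lagrange interpolation, as a modular
form for `ℋ` of weight `k + w * (μ - 1 - j)` (version for a modular form `f`). -/
def lagrangeNumMF (ℋ : Subgroup (GL (Fin 2) ℝ)) [𝒢.IsFiniteRelIndex ℋ] [ℋ.HasDetOne]
    (f : F) (t : T) [ModularFormClass F 𝒢 k] [ModularFormClass T 𝒢 w] (j : ℕ) :
    ModularForm ℋ (k + w * ((Nat.card (ℋ ⧸ (𝒢.subgroupOf ℋ)) : ℤ) - 1 - j)) :=
  ∑ i ∈ Finset.Icc (j + 1) (Nat.card (ℋ ⧸ (𝒢.subgroupOf ℋ))),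
    if h : j + 1 ≤ i ∧ i ≤ Nat.card (ℋ ⧸ (𝒢.subgroupOf ℋ)) then
      ((-1 : ℂ) ^ (Nat.card (ℋ ⧸ (𝒢.subgroupOf ℋ)) - i)) •
        ModularForm.mcast (by
          rw [Nat.cast_sub h.2, Nat.cast_sub h.1]; push_cast; ring)
          ((mixSumMF ℋ f t (i - (j + 1))).mul
            (esymmMF ℋ t (Nat.card (ℋ ⧸ (𝒢.subgroupOf ℋ)) - i)))
    else 0

lemma lagrangeNumMF_apply (f : F) (t : T) [ModularFormClass F 𝒢 k] [ModularFormClass T 𝒢 w]
    (j : ℕ) (τ : ℍ) :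
    lagrangeNumMF ℋ f t j τ =
      ∑ i ∈ Finset.Icc (j + 1) (Nat.card (ℋ ⧸ (𝒢.subgroupOf ℋ))),
        (-1) ^ (Nat.card (ℋ ⧸ (𝒢.subgroupOf ℋ)) - i) *
          (mixSumFun ℋ f t (i - (j + 1)) τ *
            esymmFun ℋ t (Nat.card (ℋ ⧸ (𝒢.subgroupOf ℋ)) - i) τ) := by
  rw [lagrangeNumMF, modularForm_sum_apply]
  refine Finset.sum_congr rfl fun i hi => ?_
  rw [dif_pos (Finset.mem_Icc.mp hi)]
  rfl

/-- Euler's form of Lagrange interpolation for modular forms `f` and `t`. -/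
theorem lagrange_relation_MF (f : F) (t : T) [ModularFormClass F 𝒢 k]
    [ModularFormClass T 𝒢 w] (τ : ℍ) :
    f τ * ∑ j ∈ Finset.range (Nat.card (ℋ ⧸ (𝒢.subgroupOf ℋ))),
        lagrangeDenMF ℋ t j τ * t τ ^ j =
      ∑ j ∈ Finset.range (Nat.card (ℋ ⧸ (𝒢.subgroupOf ℋ))),
        lagrangeNumMF ℋ f t j τ * t τ ^ j := by
  letI := Fintype.ofFinite (ℋ ⧸ (𝒢.subgroupOf ℋ))
  haveI := Classical.decEq (ℋ ⧸ (𝒢.subgroupOf ℋ))
  rw [lagrange_den_eq]
  have h := euler_lagrange_identity (fun q : ℋ ⧸ (𝒢.subgroupOf ℋ) => quotientFunc t q τ)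
    (fun q : ℋ ⧸ (𝒢.subgroupOf ℋ) => quotientFunc f q τ) ⟦1⟧
  have h1 : quotientFunc t (⟦1⟧ : ℋ ⧸ (𝒢.subgroupOf ℋ)) τ = t τ := by simp
  have h2 : quotientFunc f (⟦1⟧ : ℋ ⧸ (𝒢.subgroupOf ℋ)) τ = f τ := by simp
  simp only [h1, h2] at h
  rw [h, ← Nat.card_eq_fintype_card]
  refine Finset.sum_congr rfl fun j _ => ?_
  rw [lagrangeNumMF_apply]
  congr 1
  refine Finset.sum_congr rfl fun i hi => ?_
  rw [coeff_prod_X_sub_C_quotientFunc t τ (Finset.mem_Icc.mp hi).2, mixSumFun_apply]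
  ring

end RelationMF

section Gamma0

open CongruenceSubgroup Matrix.SpecialLinearGroup

/-- Bridge: distinctness of the `SL(2, ℤ)`-translates of `t` outside `Γ` gives distinctness of
the nontrivial conjugates `quotientFunc t q`. -/
lemma quotientFunc_ne_of_forall_slash_ne {Γ : Subgroup SL(2, ℤ)} {T : Type*} [FunLike T ℍ ℂ]
    {w : ℤ} [SlashInvariantFormClass T (Γ : Subgroup (GL (Fin 2) ℝ)) w] (t : T)
    (ht : ∀ γ : SL(2, ℤ), γ ∉ Γ → (⇑t) ∣[w] γ ≠ ⇑t)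
    (q : 𝒮ℒ ⧸ ((Γ : Subgroup (GL (Fin 2) ℝ)).subgroupOf 𝒮ℒ)) (hq : q ≠ ⟦1⟧) :
    quotientFunc t q ≠ ⇑t := by
  induction q using Quotient.inductionOn with
  | h r =>
    obtain ⟨r, γ, rfl⟩ := r
    rw [quotientFunc_mk]
    have hγ : γ⁻¹ ∉ Γ := by
      intro hmem
      apply hq
      refine (QuotientGroup.eq (s := (Γ : Subgroup (GL (Fin 2) ℝ)).subgroupOf 𝒮ℒ)).mpr ?_
      rw [Subgroup.mem_subgroupOf]
      simp only [mul_one, Subgroup.coe_inv]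
      exact ⟨γ⁻¹, hmem, by simp⟩
    have := ht γ⁻¹ hγ
    rw [ModularForm.SL_slash, map_inv] at this
    exact this

/-- Lagrange relation for `Γ₀(N)`: a cusp form `f` times the (nonzero) denominator
`∑ d_j t^j` equals `∑ h_j t^j`, with `d_j` level one modular forms and `h_j` level one
cusp forms of the indicated weights. -/
theorem exists_lagrange_relation (N : ℕ) [NeZero N] (k w : ℤ)
    (f : CuspForm (Gamma0 N) k) (t : ModularForm (Gamma0 N) w)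
    (ht : ∀ γ : SL(2, ℤ), γ ∉ Gamma0 N → (⇑t) ∣[w] γ ≠ ⇑t) :
    ∃ (μ : ℕ) (d : (j : ℕ) → ModularForm 𝒮ℒ (w * ((μ : ℤ) - 1 - j)))
      (h : (j : ℕ) → CuspForm 𝒮ℒ (k + w * ((μ : ℤ) - 1 - j))),
      (fun τ : ℍ => ∑ j ∈ Finset.range μ, d j τ * t τ ^ j) ≠ 0 ∧
      ∀ τ : ℍ, f τ * ∑ j ∈ Finset.range μ, d j τ * t τ ^ j =
        ∑ j ∈ Finset.range μ, h j τ * t τ ^ j :=
  ⟨_, fun j => lagrangeDenMF 𝒮ℒ t j, fun j => lagrangeNumCF 𝒮ℒ f t j,
    lagrangeDenFun_ne_zero t (quotientFunc_ne_of_forall_slash_ne t ht),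
    fun τ => lagrange_relation f t τ⟩

end Gamma0

end

end Fermat.Agent.S23
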